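/-
Row 37 (S43), block E0, node `q = 3` (helper103).  ABSTRACT PART.

The exports `LQ.classify`, `LQ.nodalModel`, `LQ.exists_point_depth` of `BAD/LevelQ/Pt/B/ExportDepth.lean` assume that the
poles of the coordinate `x'` of the hub are exactly the cusps (`x' = j`, which is a good coordinate only for `q ≥ 5`).
Here the three hypotheses `x ∈ ch₁`, `y ∈ ch₁`, `CuspQ … (al x')⁻¹ (be x')⁻¹` are replaced by ONE hypothesis `CuspDich`
on the closed points of the model, in terms of an auxiliary function `J` (`= j(z)`).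
-/
import Fermat.Agent.BAD.LevelQ.Pt.B.ExportDepth

set_option autoImplicit false

noncomputable section

namespace Fermat.Agent.S43.E0.Three

open Polynomial IntermediateField Fermat.Agent.S18 Fermat.Agent.S36.BP Fermat.Agent.BAD.Model
  Fermat.Agent.BAD.LevelQ Fermat.Agent.S44

variable {K₀ F' F : Type*} [Field K₀] [Field F'] [Field F] [Algebra K₀ F'] [Algebra K₀ F]
variable {A₀ : ValuationSubring K₀} {ϖ₀ : K₀} {q : ℕ} {al be : F' →ₐ[K₀] F} {w : F ≃ₐ[K₀] F}
  {γ : F' →+* F'} {Ow' : ValuationSubring F'} {V : Fin 2 → ValuationSubring F} {x' : F'}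
  {R : Subring F}
variable {x y J : F}

/-- **The cusp dichotomy**: a closed point of the model is either a non-cuspidal point (`J`, `x`, `y` are regular there)
or a cusp (`J` has a pole), and a cusp lies on one component only. -/
def CuspDich (A₀ : ValuationSubring K₀) (ϖ₀ : K₀) (V : Fin 2 → ValuationSubring F) (z J x y : F) : Prop :=
  ∀ R : Subring F, IsModelPt A₀ ϖ₀ z R →
    (J ∈ R ∧ x ∈ R ∧ y ∈ R) ∨ (J⁻¹ ∈ rad R ∧ (Away R (V 0) ∨ Away R (V 1)))

/-- every closed point is a node or a smooth point. -/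
theorem classify [CharZero K₀] (hac : IsAlgClosed (IsLocalRing.ResidueField A₀))
    (H : LQ A₀ ϖ₀ q al be w γ Ow' V x') (E : Eta (algebraMap K₀ F ϖ₀) V x y)
    (C : CuspDich A₀ ϖ₀ V (xx al be x') J x y)
    (hfin : ∀ R, IsModelPt A₀ ϖ₀ (xx al be x') R → FinAt A₀ R)
    (hR : IsModelPt A₀ ϖ₀ (xx al be x') R) :
    Depth.IsNode A₀ ϖ₀ (V 0) (V 1) x y R ∨ (Depth.IsSm A₀ ϖ₀ (V 0) R ∧ Away R (V 1)) ∨
      (Depth.IsSm A₀ ϖ₀ (V 1) R ∧ Away R (V 0)) := by
  have hB : PtBaseM A₀ ϖ₀ V R := hR.ptBaseM H.mChart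
  have c01 : LeLoc R (V 0) → Away R (V 1) → Depth.IsSm A₀ ϖ₀ (V 0) R ∧ Away R (V 1) :=
    fun h0 a1 => ⟨H.isSm hac hR 0 h0 (fun i' hi' => by
      have : i' = 1 := by omega
      rw [this]; exact a1), a1⟩
  have c10 : LeLoc R (V 1) → Away R (V 0) → Depth.IsSm A₀ ϖ₀ (V 1) R ∧ Away R (V 0) :=
    fun h1 a0 => ⟨H.isSm hac hR 1 h1 (fun i' hi' => by
      have : i' = 0 := by omega
      rw [this]; exact a0), a0⟩
  rcases hB.leLoc_or_away 0 with h0 | a0
  · rcases hB.leLoc_or_away 1 with h1 | a1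
    · rcases C R hR with ⟨-, hx, hy⟩ | ⟨-, hA⟩
      · exact Or.inl (H.isNode hac E hR hx hy h0 h1 (hfin R hR))
      · rcases hA with hA | hA
        · exact absurd hA (ExportDepth.not_away_of_leLoc h0)
        · exact absurd hA (ExportDepth.not_away_of_leLoc h1)
    · exact Or.inr (Or.inl (c01 h0 a1))
  · rcases hB.leLoc_or_away 1 with h1 | a1
    · exact Or.inr (Or.inr (c10 h1 a0))
    · exact absurd (Fin.forall_fin_two.2 ⟨a0, a1⟩) hB.not_all_away

/-- **EXPORT**: the nodal model at `e = 1`, with the tautological sets of points. -/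
theorem nodalModel [CharZero K₀] (hac : IsAlgClosed (IsLocalRing.ResidueField A₀))
    (H : LQ A₀ ϖ₀ q al be w γ Ow' V x') (E : Eta (algebraMap K₀ F ϖ₀) V x y)
    (C : CuspDich A₀ ϖ₀ V (xx al be x') J x y)
    (hfin : ∀ R, IsModelPt A₀ ϖ₀ (xx al be x') R → FinAt A₀ R) :
    Depth.NodalModel A₀ ϖ₀ 1 (V 0) (V 1) x y {R | Depth.IsSm A₀ ϖ₀ (V 0) R}
      {R | Depth.IsSm A₀ ϖ₀ (V 1) R} {R | Depth.IsNode A₀ ϖ₀ (V 0) (V 1) x y R} where
  unifA := H.vert'.unif₀
  unifi := H.unif_all 0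
  unif0 := H.unif_all 1
  consti := H.complete.const_mem 0
  const0 := H.complete.const_mem 1
  e_pos := one_pos
  xy := ⟨ϖ₀, by simp, E.mul_eq⟩
  x_i := E.x_unit
  y_0 := E.y_unit
  smi := fun _ h => h
  sm0 := fun _ h => h
  nd := fun _ h => h
  regi := fun f hf h => H.mChart.const_of_regular hac 0 hf (fun R hR hL => h R (by
    rcases classify hac H E C hfin hR with hn | ⟨hs, -⟩ | ⟨-, ha⟩
    · exact Or.inr hn
    · exact Or.inl hs
    · exact absurd ha (ExportDepth.not_away_of_leLoc hL)))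
  reg0 := fun f hf h => H.mChart.const_of_regular hac 1 hf (fun R hR hL => h R (by
    rcases classify hac H E C hfin hR with hn | ⟨-, ha⟩ | ⟨hs, -⟩
    · exact Or.inr hn
    · exact absurd ha (ExportDepth.not_away_of_leLoc hL)
    · exact Or.inl hs))

/-- the analogue of `LQ.exists_point_depth`. -/
theorem exists_point_depth [CharZero K₀] (hac : IsAlgClosed (IsLocalRing.ResidueField A₀))
    (H : LQ A₀ ϖ₀ q al be w γ Ow' V x') (E : Eta (algebraMap K₀ F ϖ₀) V x y)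
    (C : CuspDich A₀ ϖ₀ V (xx al be x') J x y) (hJ : J ≠ 0)
    (hfin : ∀ R, IsModelPt A₀ ϖ₀ (xx al be x') R → FinAt A₀ R)
    (VV : ValuationSubring F) (hA : ∀ a ∈ A₀, algebraMap K₀ F a ∈ VV) (hle : VV ≤ V 0)
    (hne : VV ≠ V 0) :
    ∃ R : Subring F, IsModelPt A₀ ϖ₀ (xx al be x') R ∧ Dominates VV R ∧
      (J ∈ VV →
        Depth.IsNode A₀ ϖ₀ (V 0) (V 1) x y R ∨ (Depth.IsSm A₀ ϖ₀ (V 0) R ∧ RUnit R x)) ∧
      (J ∉ VV → Depth.IsSm A₀ ϖ₀ (V 0) R) := by
  obtain ⟨R, hR, hd⟩ := H.mChart.proper VV hA 0 hle hne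
  have hB : PtBaseM A₀ ϖ₀ V R := hR.ptBaseM H.mChart
  have hL0 : LeLoc R (V 0) := hB.leLoc_of_dominates hle hd
  refine ⟨R, hR, hd, ?_⟩
  rcases C R hR with ⟨h1, hx, hy⟩ | ⟨hs, hA'⟩
  · refine ⟨fun _ => ?_, fun h => absurd (hd.1 _ h1) h⟩
    rcases classify hac H E C hfin hR with hn | ⟨hs, ha⟩ | ⟨-, ha⟩
    · exact Or.inl hn
    · exact Or.inr ⟨hs, hB.runit_x E hx hy ha⟩
    · exact absurd ha (ExportDepth.not_away_of_leLoc hL0)
  · refine ⟨fun h => ?_, fun _ => ?_⟩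
    · exfalso
      have h3 := hd.2 _ hs
      have h4 := (VV.valuation_le_one_iff _).2 h
      have h5 : VV.valuation (J⁻¹ * J) < 1 := by
        rw [map_mul]
        exact mul_lt_one_of_lt_of_le h3 h4
      rw [inv_mul_cancel₀ hJ, map_one] at h5
      exact lt_irrefl _ h5
    · have a1 : Away R (V 1) := hA'.resolve_left (ExportDepth.not_away_of_leLoc hL0)
      exact H.isSm hac hR 0 hL0 (fun i' hi' => by
        have : i' = 1 := by omega
        rw [this]; exact a1)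

end Fermat.Agent.S43.E0.Three

end
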