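/-
Row 37 (S43), block E0, node `q = 3` (helper103).  THE CUSP DICHOTOMY for a hub whose coordinate `x'` is a Hauptmodul of
level 2: `j x' = (1 + a x') ^ 3` (`a = 256`, a unit of `A₀`).  The cusps are the zeros AND the poles of `x'`; the cusp analysis
is done with `1 / j(z)`, `1 / j(q z)` (the modular equation `Rel` for `j` holds for every prime `q`).
-/
import Fermat.Agent.S43.E0.Three.Abs
import Fermat.Agent.BAD.Model.Pre.Denominator
import Fermat.Agent.BAD.Model.Pre.Overlap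

set_option autoImplicit false

noncomputable section

namespace Fermat.Agent.S43.E0.Three

open Polynomial IntermediateField Fermat.Agent.S18 Fermat.Agent.S36.BP Fermat.Agent.BAD.Model
  Fermat.Agent.BAD.LevelQ Fermat.Agent.S44

variable {K₀ F' F : Type*} [Field K₀] [Field F'] [Field F] [Algebra K₀ F'] [Algebra K₀ F]
variable {A₀ : ValuationSubring K₀} {ϖ₀ : K₀} {q : ℕ} {al be : F' →ₐ[K₀] F} {w : F ≃ₐ[K₀] F}
  {γ : F' →+* F'} {Ow' : ValuationSubring F'} {V : Fin 2 → ValuationSubring F} {x' : F'}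
  {R : Subring F}
variable {x y J : F}

/-- An element which is regular outside the poles of `J` on the generic fibre and integral at all the vertical valuations
is regular at every closed point where `J` is regular. -/
theorem mem_of_mem_chart_top (h₀ : IsUnif A₀ ϖ₀) (hP : IsPt A₀ R) (hB : PtBaseM A₀ ϖ₀ V R)
    (hϖ : ∀ c, algebraMap K₀ F ϖ₀ ∈ V c) (hJ : J ∈ R) {z : F} (hzV : ∀ c, z ∈ V c)
    (hz : z ∈ chart (⊤ : Subring K₀) J) : z ∈ R := by
  obtain ⟨k, hk⟩ := exists_pow_mul_mem_chart h₀ hz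
  have hk' : algebraMap K₀ F ϖ₀ ^ k * z ∈ R := chart_le_of_isPt hP hJ _ hk
  clear hk
  induction k with
  | zero => simpa using hk'
  | succ k ih =>
    apply ih
    refine hB.qep _ ?_ fun c => Or.inl ((V c).mul_mem _ _ ((V c).pow_mem (hϖ c) k) (hzV c))
    rw [← mul_assoc, ← pow_succ']
    exact hk'

section Local

variable {s j a : F}

/-- at a zero of the Hauptmodul, `1 / j` vanishes. -/
theorem inv_mem_rad_of_mem_rad (hP : IsPt A₀ R) (ha : a ∈ R) (hj : j * s = (1 + a * s) ^ 3)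
    (hs0 : s ≠ 0) (hs : s ∈ rad R) : j⁻¹ ∈ rad R := by
  have hu : RUnit R (1 + a * s) := by
    refine hP.runit_of_cr (b := 1) ?_ (RUnit.one R)
    unfold Cr
    rw [add_sub_cancel_left]
    exact mul_mem_rad ha hs
  have e : j⁻¹ = ((1 + a * s) ^ 3)⁻¹ * s := by
    have h1 := (hu.pow 3).1
    have hj0 : j ≠ 0 := fun h => h1 (by rw [← hj, h, zero_mul])
    rw [← hj, mul_inv, mul_assoc, inv_mul_cancel₀ hs0, mul_one]
  rw [e]
  exact mul_mem_rad (hu.pow 3).inv_mem hs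

/-- at a pole of the Hauptmodul, `1 / j` vanishes. -/
theorem inv_mem_rad_of_inv_mem_rad (hP : IsPt A₀ R) (ha : RUnit R a)
    (hj : j * s = (1 + a * s) ^ 3) (hs0 : s ≠ 0) (hs : s⁻¹ ∈ rad R) : j⁻¹ ∈ rad R := by
  have hu : RUnit R (s⁻¹ + a) := by
    refine hP.runit_of_cr (b := a) ?_ ha
    unfold Cr
    rw [add_sub_cancel_right]
    exact hs
  have e : j⁻¹ = (((s⁻¹ + a) ^ 3)⁻¹ * s⁻¹) * s⁻¹ := by
    have h1 := (hu.pow 3).1
    have h2 : (s⁻¹ + a) ^ 3 * s ^ 3 = (1 + a * s) ^ 3 := by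
      rw [← mul_pow, add_mul, inv_mul_cancel₀ hs0]
    have h3 : (1 + a * s) ^ 3 ≠ 0 := by
      rw [← h2]
      exact mul_ne_zero h1 (pow_ne_zero 3 hs0)
    have hj0 : j ≠ 0 := fun h => h3 (by rw [← hj, h, zero_mul])
    rw [eq_comm, ← mul_inv, ← mul_inv, inv_inj]
    have h4 : (s⁻¹ + a) ^ 3 * s * s * s = j * s := by
      rw [hj, ← h2]
      ring
    exact mul_right_cancel₀ hs0 h4
  rw [e]
  exact mul_mem_rad (R.mul_mem (hu.pow 3).inv_mem hs.1) hs

/-- where the Hauptmodul is a unit, `j` is regular. -/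
theorem mem_of_runit (ha : a ∈ R) (hj : j * s = (1 + a * s) ^ 3) (hs : RUnit R s) : j ∈ R := by
  have e : j = (1 + a * s) ^ 3 * s⁻¹ := by
    rw [← hj, mul_assoc, mul_inv_cancel₀ hs.1, mul_one]
  rw [e]
  exact R.mul_mem (R.pow_mem (R.add_mem R.one_mem (R.mul_mem ha hs.mem)) 3) hs.inv_mem

end Local

/-- **The cusp dichotomy** for a hub whose coordinate is a Hauptmodul `x'` with `j x' = (1 + a x') ^ 3`. -/
theorem cuspDich [CharZero K₀] (hac : IsAlgClosed (IsLocalRing.ResidueField A₀))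
    (H : LQ A₀ ϖ₀ q al be w γ Ow' V x') {j' : F'} {c : ℕ → ℕ → K₀} {a : K₀}
    (ha : A₀.valuation a = 1) (hj : j' * x' = (1 + algebraMap K₀ F' a * x') ^ 3)
    (C : CuspQ A₀ q V c (al j')⁻¹ (be j')⁻¹)
    (hxV : ∀ i, x ∈ V i) (hyV : ∀ i, y ∈ V i)
    (hx : x ∈ chart (⊤ : Subring K₀) (al j')) (hy : y ∈ chart (⊤ : Subring K₀) (al j')) :
    CuspDich A₀ ϖ₀ V (xx al be x') (al j') x y := by
  intro R hR
  have hP : IsPt A₀ R := hR.isPt H.mChart hac
  have hB : PtBaseM A₀ ϖ₀ V R := hR.ptBaseM H.mChart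
  have hA : RUnit R (algebraMap K₀ F a) := hP.runit_const ha
  have hal : al j' * al x' = (1 + algebraMap K₀ F a * al x') ^ 3 := by
    rw [← map_mul, hj]
    simp
  have hbe : be j' * be x' = (1 + algebraMap K₀ F a * be x') ^ 3 := by
    rw [← map_mul, hj]
    simp
  have hs0 : al x' ≠ 0 := (H.isMCoord_al 0).ne_zero
  have hs0' : be x' ≠ 0 := (H.isMCoord_be 0).ne_zero
  have cusp : (al j')⁻¹ ∈ rad R →
      (al j' ∈ R ∧ x ∈ R ∧ y ∈ R) ∨ ((al j')⁻¹ ∈ rad R ∧ (Away R (V 0) ∨ Away R (V 1))) :=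
    fun h => Or.inr ⟨h, C.away H.prime.two_le hP h⟩
  have cusp' : (be j')⁻¹ ∈ rad R →
      (al j' ∈ R ∧ x ∈ R ∧ y ∈ R) ∨ ((al j')⁻¹ ∈ rad R ∧ (Away R (V 0) ∨ Away R (V 1))) :=
    fun h => cusp (C.rel.symm.mem_rad hP (fun a b => C.coeff_mem b a) h)
  rcases H.ch₁_le_or hR with h | ⟨h, h'⟩
  · have h1 : al x' ∈ R := h _ H.al_mem_chart_xx
    have h2 : be x' ∈ R := h _ H.be_mem_chart_xx
    rcases runit_or_mem_rad h1 with u1 | r1
    · rcases runit_or_mem_rad h2 with u2 | r2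
      · left
        have hJ : al j' ∈ R := mem_of_runit hA.mem hal u1
        have hϖ : ∀ c, algebraMap K₀ F ϖ₀ ∈ V c := fun c =>
          H.complete.const_mem c _ H.complete.unif₀.mem
        exact ⟨hJ, mem_of_mem_chart_top H.complete.unif₀ hP hB hϖ hJ hxV hx,
          mem_of_mem_chart_top H.complete.unif₀ hP hB hϖ hJ hyV hy⟩
      · exact cusp' (inv_mem_rad_of_mem_rad hP hA.mem hbe hs0' r2)
    · exact cusp (inv_mem_rad_of_mem_rad hP hA.mem hal hs0 r1)
  · have h1 : (al x')⁻¹ ∈ R := by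
      rw [← map_inv₀]
      exact h _ (H.al_mem_ch₂ (self_mem_chart _))
    have h2 : (be x')⁻¹ ∈ R := by
      rw [← map_inv₀]
      exact h _ (H.be_mem_ch₂ (self_mem_chart _))
    rcases runit_or_mem_rad h1 with u1 | r1
    · rcases runit_or_mem_rad h2 with u2 | r2
      · exfalso
        apply h'.2
        rw [xx, mul_inv]
        exact u1.mul u2
      · exact cusp' (inv_mem_rad_of_inv_mem_rad hP hA hbe hs0' r2)
    · exact cusp (inv_mem_rad_of_inv_mem_rad hP hA hal hs0 r1)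

end Fermat.Agent.S43.E0.Three

end
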