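/-
Row 37 (S43), block E0, node `q = 3` (helper103).  `CuspQ` for `1 / j(z)`, `1 / j(q z)` from a hub whose coordinate `x'` is a
Hauptmodul with `j x' = (1 + a x') ^ 3`: Kronecker's congruences for `j` follow from `LQ.kron` at `f = j`.
-/
import Fermat.Agent.S43.E0.Three.Dich
import Fermat.Agent.BAD.LevelQ.Pt.Cusp

set_option autoImplicit false

noncomputable section

namespace Fermat.Agent.S43.E0.Three

open Polynomial IntermediateField Fermat.Agent.S18 Fermat.Agent.S36.BP Fermat.Agent.BAD.Model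
  Fermat.Agent.BAD.LevelQ Fermat.Agent.S44

variable {K₀ F' F : Type*} [Field K₀] [Field F'] [Field F] [Algebra K₀ F'] [Algebra K₀ F]
variable {A₀ : ValuationSubring K₀} {ϖ₀ : K₀} {q : ℕ} {al be : F' →ₐ[K₀] F} {w : F ≃ₐ[K₀] F}
  {γ : F' →+* F'} {Ow' : ValuationSubring F'} {V : Fin 2 → ValuationSubring F} {x' : F'}
  {j' : F'} {a : K₀}

theorem val_lin (H : LQ A₀ ϖ₀ q al be w γ Ow' V x') (ha : a ∈ A₀) :
    Ow'.valuation (1 + algebraMap K₀ F' a * x') = 1 := by
  have hm : 1 + algebraMap K₀ F' a * x' ∈ Ow' :=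
    Ow'.add_mem _ _ Ow'.one_mem (Ow'.mul_mem _ _ (H.vert'.const_mem a ha) H.coord'.mem)
  refine le_antisymm ((Ow'.valuation_le_one_iff _).2 hm) (not_lt.1 fun hlt => ?_)
  have h := H.isMCoord'.transc (C 1 + C a * X) (fun i => by
    rw [coeff_add, coeff_C_mul, coeff_C, coeff_X]
    split_ifs
    · exact A₀.add_mem _ _ A₀.one_mem (A₀.mul_mem _ _ ha A₀.one_mem)
    · exact A₀.add_mem _ _ A₀.one_mem (A₀.mul_mem _ _ ha A₀.zero_mem)
    · exact A₀.add_mem _ _ A₀.zero_mem (A₀.mul_mem _ _ ha A₀.one_mem)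
    · exact A₀.add_mem _ _ A₀.zero_mem (A₀.mul_mem _ _ ha A₀.zero_mem)) (by
      simpa using hlt) 0
  simp at h

theorem val_j (H : LQ A₀ ϖ₀ q al be w γ Ow' V x') (ha : a ∈ A₀)
    (hj : j' * x' = (1 + algebraMap K₀ F' a * x') ^ 3) : Ow'.valuation j' = 1 := by
  have h := congrArg Ow'.valuation hj
  rwa [map_mul, map_pow, val_lin H ha, H.isMCoord'.valuation_eq_one, mul_one, one_pow] at h

theorem γ_j (H : LQ A₀ ϖ₀ q al be w γ Ow' V x')
    (hγ : γ (algebraMap K₀ F' a) = algebraMap K₀ F' a)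
    (hj : j' * x' = (1 + algebraMap K₀ F' a * x') ^ 3) : γ j' = j' := by
  have h := congrArg γ hj
  rw [map_mul, map_pow, map_add, map_mul, map_one, hγ, H.γ_x, ← hj] at h
  exact mul_right_cancel₀ H.isMCoord'.ne_zero h

theorem val_al_of (H : LQ A₀ ϖ₀ q al be w γ Ow' V x') {f : F'} (hf : Ow'.valuation f = 1)
    (c : Fin 2) : (V c).valuation (al f) = 1 := by
  obtain ⟨h0, h1, h2⟩ := val_eq_one_iff.1 hf
  refine val_eq_one_iff.2 ⟨by simpa using h0, (H.al_mem_iff c f).2 h1, ?_⟩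
  rw [← map_inv₀]
  exact (H.al_mem_iff c _).2 h2

theorem val_be_of (H : LQ A₀ ϖ₀ q al be w γ Ow' V x') {f : F'} (hf : Ow'.valuation f = 1)
    (c : Fin 2) : (V c).valuation (be f) = 1 := by
  obtain ⟨h0, h1, h2⟩ := val_eq_one_iff.1 hf
  refine val_eq_one_iff.2 ⟨by simpa using h0, (H.be_mem_iff c f).2 h1, ?_⟩
  rw [← map_inv₀]
  exact (H.be_mem_iff c _).2 h2

/-- **`CuspQ` for `j`** from a hub whose coordinate is a Hauptmodul of level 2. -/
theorem cuspQ_j (H : LQ A₀ ϖ₀ q al be w γ Ow' V x') (ha : a ∈ A₀)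
    (hγ : γ (algebraMap K₀ F' a) = algebraMap K₀ F' a)
    (hj : j' * x' = (1 + algebraMap K₀ F' a * x') ^ 3) {c : ℕ → ℕ → K₀}
    (hc : ∀ a b, c a b ∈ A₀) (h0 : A₀.valuation (c 0 0) = 1)
    (hrel : Rel q c (al j')⁻¹ (be j')⁻¹) : CuspQ A₀ q V c (al j')⁻¹ (be j')⁻¹ := by
  have hv := val_j H ha hj
  have hm : j' ∈ Ow' := (Ow'.valuation_le_one_iff _).1 hv.le
  have hj0 : j' ≠ 0 := (val_eq_one_iff.1 hv).1
  exact
    { coeff_mem := hc
      coeff_unit := h0
      ne := inv_ne_zero (by simpa using hj0)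
      ne' := inv_ne_zero (by simpa using hj0)
      rel := hrel
      cong0 := by
        have h := H.kron j' hm
        rw [γ_j H hγ hj] at h
        have e : (al j')⁻¹ ^ q / (be j')⁻¹ = be j' / al j' ^ q := by
          rw [inv_pow, div_inv_eq_mul, mul_comm, div_eq_mul_inv]
        rw [e]
        exact val_div_sub_one_lt (by rw [map_pow, val_al_of H hv, one_pow]) h
      cong1 := by
        have h := H.kron_one j' hm
        rw [γ_j H hγ hj] at h
        have e : (be j')⁻¹ ^ q / (al j')⁻¹ = al j' / be j' ^ q := by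
          rw [inv_pow, div_inv_eq_mul, mul_comm, div_eq_mul_inv]
        rw [e]
        exact val_div_sub_one_lt (by rw [map_pow, val_be_of H hv, one_pow]) h }

end Fermat.Agent.S43.E0.Three

end
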