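/-
Row 37 (S43), block E0, node `q = 3` (helper103).  THE INSTANCE: the statement `S44.Depth.Inst.NodeModelD` (nodal model of
`X₀(4 M' p)` over the ring of integers of the inertia field, with the eta units `x y = p`) for `p = 3`, hence for every odd
prime `p`:  `nodeModelOdd : NodeModelOdd`.
Hub `LQ` with the coordinate `h₂` (`S34.Nodal.Inst.Base.exists_baseData_h2`), cusp analysis with `j = (1 + 256 h₂)³ / h₂`.
-/
import Fermat.Agent.S43.E0.Three.CuspJ
import Fermat.Agent.S43.E0.Three.Defs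
import Fermat.Agent.S44.Depth.Inst.MD.Final
import Fermat.Agent.BAD.LevelQ.Mod.PoleH

set_option autoImplicit false
set_option linter.unusedSectionVars false

noncomputable section

namespace Fermat.Agent.S43.E0.Three

open ModularCurve AlgebraicCurve Fermat.Agent.S24 Fermat.Agent.S18 Fermat.Agent.S36.Mod
  Fermat.Agent.BAD.LevelQ Fermat.Agent.BAD.LevelQ.Mod Fermat.Agent.Lib.EtaUnit
  Fermat.Agent.Lib.InertiaField Fermat.Agent.S36.BP Fermat.Agent.S44.X Fermat.Agent.S44.X.Model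
  Fermat.Agent.S28.Export Fermat.Agent.Lib.Hauptmodul Fermat.Agent.S44.Depth.Inst

theorem coe_jK' (K : Type*) [Field K] [Algebra ℚ K] (M : ℕ) :
    ((jK K M : FK K M) : LaurentSeries K) = coeffEmb K jq := rfl

theorem coe_xK' (K : Type*) [Field K] [Algebra ℚ K] {M ℓ : ℕ} (D : BaseData M ℓ) :
    ((D.xK K : FK K M) : LaurentSeries K) = coeffEmb K (coeffMap (Int.castRingHom ℚ) D.X) := rfl

/-- `j h₂ = (1 + 256 h₂)³` in the function field of level `M` over `K`. -/
theorem jK_mul_xK (K : Type*) [Field K] [Algebra ℚ K] {M : ℕ} [NeZero M] {D : BaseData M 3}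
    (hX : D.X = S18.Base.mkX 1 u2Z) :
    jK K M * D.xK K = (1 + algebraMap K (FK K M) 256 * D.xK K) ^ 3 := by
  have e : coeffMap (Int.castRingHom ℚ) D.X = h2q := by
    rw [hX]
    exact S18.Base.coeffMap_mkX_one u2Z
  apply Subtype.ext
  rw [map_ofNat]
  push_cast
  rw [coe_jK', coe_xK', e, ← map_mul, jq_mul_h2q]
  simp only [map_pow, map_add, map_one, map_mul, map_ofNat]
  rfl

section XY

variable {K : Type*} [Field K] [Algebra ℚ K] [Algebra K Kbar]
  {A₀ : ValuationSubring K} [IsDiscreteValuationRing A₀] {M q : ℕ} [NeZero M] [NeZero q]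
  {a : ℕ} {χ : ℤ → ℤ} {G : UpperHalfPlane → ℂ} {Gs : PowerSeries ℤ}
  (h : IsW1 a χ G Gs) (hq : Nat.Coprime q a) (ha : a ∣ M) (hc : M.Coprime q)
  (hN : a * q ∣ M * q)

include ha in
theorem x_mem_VV (c : Fin 2) : unitK h q (M * q) hq hN K ∈ VV A₀ hc c := by
  rw [← ValuationSubring.valuation_le_one_iff]
  fin_cases c
  · exact (val_x_zero h hq hc hN).le
  · show (VV A₀ hc 1).valuation _ ≤ 1
    have e : (VV A₀ hc 1).valuation (unitK h q (M * q) hq hN K) =
        (VV A₀ hc 1).valuation (q : FK K (M * q)) := by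
      rw [← x_mul_y h hq hN, map_mul, val_y_one h hq ha hc hN, mul_one]
    rw [e, ValuationSubring.valuation_le_one_iff]
    exact natCast_mem _ q

include ha in
theorem y_mem_VV (c : Fin 2) : yK h hq hN K ∈ VV A₀ hc c := by
  rw [← ValuationSubring.valuation_le_one_iff]
  fin_cases c
  · show (VV A₀ hc 0).valuation _ ≤ 1
    rw [yK, map_mul, map_inv₀, val_x_zero h hq hc hN, inv_one, mul_one,
      ValuationSubring.valuation_le_one_iff]
    exact natCast_mem _ q
  · exact (val_y_one h hq ha hc hN).le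

theorem x_mem_top : unitK h q (M * q) hq hN K ∈ chart (⊤ : Subring K) (al K M q (jK K M)) :=
  unitK_mem_chart_top h q (M * q) hq hN K

theorem y_mem_top : yK h hq hN K ∈ chart (⊤ : Subring K) (al K M q (jK K M)) :=
  Subring.mul_mem _ (natCast_mem _ q) (unitK_inv_mem_chart_top h q (M * q) hq hN K)

end XY

theorem val_256 {K : Type*} [Field K] {A₀ : ValuationSubring K} (h : A₀.valuation (3 : K) < 1) :
    A₀.valuation (256 : K) = 1 := by
  have e : (256 : K) = 1 + 3 * 85 := by norm_num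
  rw [e]
  apply Valuation.map_one_add_of_lt
  rw [map_mul]
  refine mul_lt_one_of_lt_of_le h ?_
  rw [ValuationSubring.valuation_le_one_iff]
  exact ofNat_mem _ 85

/-- **The nodal model of `X₀(4 M' 3)` over the inertia field at `3`.** -/
theorem modelAt_three (p : ℕ) [NeZero p] (M' : ℕ) [NeZero M'] (hp : p.Prime) (h3 : p = 3)
    (hpM' : ¬ p ∣ M') (hp4 : Nat.Coprime p 4) (A : ValuationSubring S44.Qb)
    (hA : A.LiesOverPrime p) : ModelAt p M' hp4 A := by
  subst h3
  have := isDiscreteValuationRing_A0 A 3 hp hA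
  have hpM : ¬ 3 ∣ M' * 4 := fun h => hpM' (hp4.dvd_of_dvd_mul_right h)
  have hc : (M' * 4).Coprime 3 := ((Nat.Prime.coprime_iff_not_dvd hp).2 hpM).symm
  have hN : 4 * 3 ∣ M' * 4 * 3 := ⟨M', by ring⟩
  have h4 : 4 ∣ M' * 4 := Dvd.intro_left M' rfl
  have h2 : 2 ∣ M' * 4 := Dvd.dvd.mul_left (by norm_num) M'
  obtain ⟨D, hX, hDbar⟩ := S34.Nodal.Inst.Base.exists_baseData_h2 (M' * 4) h2
  have hB : S34.Nodal.Inst.BaseOK (M' * 4) 3 (D.xK Kbar) := by
    rw [hDbar]
    exact S34.Nodal.Inst.Ord.baseOK_h2 hp h2 (by norm_num)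
  obtain ⟨γ₀, -, H⟩ := lq_inertia A hp hA hc D (beInt_of_baseOK D hB)
  have hj := jK_mul_xK (K0 A) hX
  have h256 : (A0 A).valuation (256 : K0 A) = 1 := val_256 (by simpa using H.char)
  obtain ⟨c', h0, hrel⟩ := exists_rel_j (K := K0 A) (M := M' * 4) hp
  have C := cuspQ_j H (a := 256) ((ValuationSubring.valuation_le_one_iff _ _).1 h256.le)
    (by rw [map_ofNat, map_ofNat]) hj (fun a b => intCast_mem (A0 A) _)
    (by rw [h0]; simp) hrel
  have E := etaW1 isW1_G4 hp4 h4 hc hN (A₀ := A0 A) (K := K0 A)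
  have hac := isAlgClosed_residueField_A0 A 3 hp hA
  have hfin := nodeFinD 3 A hp hA (M' * 4 * 3) _ _ H.mChart
  have E' : Eta (algebraMap (K0 A) (FK (K0 A) (M' * 4 * 3)) ((3 : ℕ) : K0 A)) (VV (A0 A) hc)
      (unitK isW1_G4 3 (M' * 4 * 3) hp4 hN (K0 A)) (yK isW1_G4 hp4 hN (K0 A)) := by
    rw [map_natCast]
    exact E
  have CD := cuspDich hac H h256 hj C (x_mem_VV isW1_G4 hp4 h4 hc hN)
    (y_mem_VV isW1_G4 hp4 h4 hc hN) (x_mem_top isW1_G4 hp4 hN) (y_mem_top isW1_G4 hp4 hN)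
  have hJ0 : al (K0 A) (M' * 4) 3 (jK (K0 A) (M' * 4)) ≠ 0 := fun h => C.ne (by rw [h, inv_zero])
  refine ⟨VV (A0 A) hc 0, VV (A0 A) hc 1, unitK isW1_G4 3 (M' * 4 * 3) hp4 hN (K0 A),
    yK isW1_G4 hp4 hN (K0 A), _, _, _, MD.isGauss hp hA hpM, nodalModel hac H E' CD hfin,
    ⟨1, one_ne_zero, ?_⟩, fun w => ?_⟩
  · rw [map_one, one_mul]
    exact baseChangeMap_unitK isW1_G4 3 (M' * 4 * 3) hp4 hN _
  · obtain ⟨R, -, hdom, h1, h2⟩ := exists_point_depth hac H E' CD hJ0 hfin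
      (VVw (comap_A0 A) hp hA hpM w)
      (const_mem_VVw (comap_A0 A) hp hA hpM w) (VVw_le (comap_A0 A) hp hA hpM w)
      (VVw_ne (comap_A0 A) hp hA hpM w (resFieldMap_surjective hp hA))
    refine ⟨R, MD.centred hp hA hpM w hdom, ?_⟩
    by_cases hw : 0 ≤ w.ord (jk A (M' * 4))
    · rcases h1 ((al_jK_mem_VVw_iff hp hpM hA w).2 hw) with hn | ⟨hs, hu⟩
      · exact Or.inl ⟨hn, hw⟩
      · exact Or.inr ⟨hs, fun _ => hu⟩
    · exact Or.inr ⟨h2 fun hmem => hw ((al_jK_mem_VVw_iff hp hpM hA w).1 hmem),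
        fun h => absurd h hw⟩

/-- **`NodeModelD` for all odd primes.** -/
theorem nodeModelOdd : NodeModelOdd := by
  intro p _ M' _ hp hp2 hpM hc A hA
  by_cases h3 : p = 3
  · exact modelAt_three p M' hp h3 hpM hc A hA
  · refine modelAt_of_nodeModelD nodeModelD p M' hp ?_ hpM hc A hA
    have h2 := hp.two_le
    by_contra hlt
    have : p = 4 := by omega
    subst this
    exact absurd hp (by norm_num)

end Fermat.Agent.S43.E0.Three

end
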