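/-
Row 37 (S43), block E0, node `q = 3` (helper103): helper21's model package `Slope.ModelE q M' hc4 hc A` for `q = 3`, hence for
every odd prime `q`, and the slope formula without `5 ≤ q`.
-/
import Fermat.Agent.S43.E0.Three.Inst
import Fermat.Agent.S43.E0.Slope.Main

set_option autoImplicit false
set_option linter.unusedSectionVars false

noncomputable section

namespace Fermat.Agent.S43.E0.Three

open ModularCurve AlgebraicCurve Fermat.Agent.S24 Fermat.Agent.S18 Fermat.Agent.S36.Mod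
  Fermat.Agent.BAD.LevelQ Fermat.Agent.BAD.LevelQ.Mod Fermat.Agent.Lib.EtaUnit
  Fermat.Agent.Lib.InertiaField Fermat.Agent.S36.BP Fermat.Agent.S44.X Fermat.Agent.S44.X.Model
  Fermat.Agent.S28.Export Fermat.Agent.Lib.Hauptmodul Fermat.Agent.S44.Depth.Inst
  Fermat.Agent.S43.E0.Slope

variable {A : ValuationSubring S44.Qb} {q : ℕ} [NeZero q] {M' : ℕ} [NeZero M']

/-- **The model package for `q = 3`.** -/
theorem modelE_three [IsDiscreteValuationRing (A0 A)] (hq : q.Prime) (h3 : q = 3)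
    (hqM' : ¬ q ∣ M') (hc4 : Nat.Coprime q 4) (hc : (M' * 4).Coprime q)
    (hA : A.LiesOverPrime q) : ModelE q M' hc4 hc A := by
  subst h3
  have hqM : ¬ 3 ∣ M' * 4 := fun h => hqM' (hc4.dvd_of_dvd_mul_right h)
  have hN : 4 * 3 ∣ M' * 4 * 3 := ⟨M', by ring⟩
  have h4 : 4 ∣ M' * 4 := Dvd.intro_left M' rfl
  have h2 : 2 ∣ M' * 4 := Dvd.dvd.mul_left (by norm_num) M'
  obtain ⟨D, hX, hDbar⟩ := S34.Nodal.Inst.Base.exists_baseData_h2 (M' * 4) h2
  have hB : S34.Nodal.Inst.BaseOK (M' * 4) 3 (D.xK Kbar) := by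
    rw [hDbar]
    exact S34.Nodal.Inst.Ord.baseOK_h2 hq h2 (by norm_num)
  obtain ⟨γ₀, -, H⟩ := lq_inertia A hq hA hc D (beInt_of_baseOK D hB)
  have hj := jK_mul_xK (K0 A) hX
  have h256 : (A0 A).valuation (256 : K0 A) = 1 := val_256 (by simpa using H.char)
  obtain ⟨c', h0, hrel⟩ := exists_rel_j (K := K0 A) (M := M' * 4) hq
  have C := cuspQ_j H (a := 256) ((ValuationSubring.valuation_le_one_iff _ _).1 h256.le)
    (by rw [map_ofNat, map_ofNat]) hj (fun a b => intCast_mem (A0 A) _)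
    (by rw [h0]; simp) hrel
  have E := etaW1 isW1_G4 hc4 h4 hc hN (A₀ := A0 A) (K := K0 A)
  have hac := isAlgClosed_residueField_A0 A 3 hq hA
  have hfin := nodeFinD 3 A hq hA (M' * 4 * 3) _ _ H.mChart
  have E' : Eta (algebraMap (K0 A) (FK (K0 A) (M' * 4 * 3)) ((3 : ℕ) : K0 A)) (VV (A0 A) hc)
      (unitK isW1_G4 3 (M' * 4 * 3) hc4 hN (K0 A)) (yK isW1_G4 hc4 hN (K0 A)) := by
    rw [map_natCast]
    exact E
  have CD := cuspDich hac H h256 hj C (x_mem_VV isW1_G4 hc4 h4 hc hN)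
    (y_mem_VV isW1_G4 hc4 h4 hc hN) (x_mem_top isW1_G4 hc4 hN) (y_mem_top isW1_G4 hc4 hN)
  have hJ0 : al (K0 A) (M' * 4) 3 (jK (K0 A) (M' * 4)) ≠ 0 := fun h => C.ne (by rw [h, inv_zero])
  refine ⟨unitK isW1_G4 3 (M' * 4 * 3) hc4 hN (K0 A),
    yK isW1_G4 hc4 hN (K0 A), _, _, _, nodalModel hac H E' CD hfin,
    baseChangeMap_unitK isW1_G4 3 (M' * 4 * 3) hc4 hN _, fun w => ?_⟩
  obtain ⟨R, -, hdom, h1, h2⟩ := exists_point_depth hac H E' CD hJ0 hfin
    (VVw (comap_A0 A) hq hA hqM w)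
    (const_mem_VVw (comap_A0 A) hq hA hqM w) (VVw_le (comap_A0 A) hq hA hqM w)
    (VVw_ne (comap_A0 A) hq hA hqM w (resFieldMap_surjective hq hA))
  refine ⟨R, MD.centred hq hA hqM w hdom, ?_⟩
  by_cases hw : 0 ≤ w.ord (jk A (M' * 4))
  · rcases h1 ((al_jK_mem_VVw_iff hq hqM hA w).2 hw) with hn | ⟨hs, hu⟩
    · exact Or.inl ⟨hn, hw⟩
    · exact Or.inr ⟨hs, fun _ => hu⟩
  · exact Or.inr ⟨h2 fun hmem => hw ((al_jK_mem_VVw_iff hq hqM hA w).1 hmem),
      fun h => absurd h hw⟩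

/-- **The model package for every odd prime `q`.** -/
theorem modelE_odd [IsDiscreteValuationRing (A0 A)] (hq : q.Prime) (hq2 : q ≠ 2)
    (hqM' : ¬ q ∣ M') (hc4 : Nat.Coprime q 4) (hc : (M' * 4).Coprime q)
    (hA : A.LiesOverPrime q) : ModelE q M' hc4 hc A := by
  by_cases h3 : q = 3
  · exact modelE_three hq h3 hqM' hc4 hc hA
  · refine modelE hq ?_ hqM' hc4 hc hA
    have h2 := hq.two_le
    by_contra hlt
    have : q = 4 := by omega
    subst this
    exact absurd hq (by norm_num)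

end Fermat.Agent.S43.E0.Three

end
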