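/-
Row 37 (S43), block E0, node `q = 3` (helper103).  The Prop `NodeModelOdd`: VERBATIM `S44.Depth.Inst.NodeModelD`
(`S44/Depth/Inst/MDDefs.lean`) with the hypothesis `5 ≤ p` replaced by `p ≠ 2`.
-/
import Fermat.Agent.S44.Depth.Inst.MDDefs

set_option autoImplicit false

noncomputable section

namespace Fermat.Agent.S43.E0.Three

open ModularCurve AlgebraicCurve Fermat.Agent.S24 Fermat.Agent.GAL Fermat.Agent.S44.X
  Fermat.Agent.Lib.InertiaField Fermat.Agent.S18.Descent Fermat.Agent.BAD.Bridge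
  Fermat.Agent.S28.Export Fermat.Agent.S36.BP Fermat.Agent.BAD.LevelQ.Mod
  Fermat.Agent.S44.Depth Fermat.Agent.S44.Depth.Inst Fermat.Agent.S44
open Fermat.Agent.S18 (IsUnif)

/-- The conclusion of `S44.Depth.Inst.NodeModelD` for one `(p, M', A)`. -/
def ModelAt (p : ℕ) [NeZero p] (M' : ℕ) [NeZero M'] (hc : Nat.Coprime p 4)
    (A : ValuationSubring S44.Qb) : Prop :=
  ∃ (Vi₀ V0₀ : ValuationSubring (FK (K0 A) (M' * 4 * p))) (x₀ y₀ : FK (K0 A) (M' * 4 * p))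
    (Smi Sm0 Nd : Set (Subring (FK (K0 A) (M' * 4 * p)))),
    IsGauss A Vi₀ ∧ NodalModel (A0 A) (p : K0 A) 1 Vi₀ V0₀ x₀ y₀ Smi Sm0 Nd ∧
    (∃ c : S44.Qb, c ≠ 0 ∧
      bcK (K0 A) (M' * 4 * p) x₀ = algebraMap S44.Qb (FN (M' * 4 * p)) c * xU p M' hc) ∧
    ∀ w : Place (kA A) (Fk A (M' * 4)), ∃ R₀, Centred A (M' * 4) p w R₀ ∧
      ((R₀ ∈ Nd ∧ 0 ≤ w.ord (jk A (M' * 4))) ∨
        (R₀ ∈ Smi ∧ (0 ≤ w.ord (jk A (M' * 4)) → RUnit R₀ x₀)))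

/-- **`NodeModelD` for all odd primes.** -/
def NodeModelOdd : Prop :=
  ∀ (p : ℕ) [NeZero p] (M' : ℕ) [NeZero M'], p.Prime → p ≠ 2 → ¬ p ∣ M' → ∀ hc : Nat.Coprime p 4,
    ∀ A : ValuationSubring S44.Qb, A.LiesOverPrime p → ModelAt p M' hc A

theorem modelAt_of_nodeModelD (h : NodeModelD) (p : ℕ) [NeZero p] (M' : ℕ) [NeZero M']
    (hp : p.Prime) (h5 : 5 ≤ p) (hpM : ¬ p ∣ M') (hc : Nat.Coprime p 4)
    (A : ValuationSubring S44.Qb) (hA : A.LiesOverPrime p) : ModelAt p M' hc A :=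
  h p M' hp h5 hpM hc A hA

end Fermat.Agent.S43.E0.Three

end
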