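/-
Row 37 (S43), block E0, node MODELO (helper103; shape asked by helper36's ruling #1679).

ONE Prop `ModelO q M' hc4 hc A`: the regular nodal model of `X₀(4 M' q)` over `A0 A` as a set of closed points
`IsModelPt (A0 A) q z R` of ONE chart pair (`MChart`), every closed point being an `IsPt`, a `PtBaseM`, `FinAt`, and a node or a
smooth point of exactly one component; plus the `NodalModel` with the tautological sets of points.
PROVED FOR EVERY ODD PRIME `q` (`modelO_odd`), `q = 3` included.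
-/
import Fermat.Agent.S43.E0.Three.Inst

set_option autoImplicit false
set_option linter.unusedSectionVars false

noncomputable section

namespace Fermat.Agent.S43.E0.Three

open ModularCurve AlgebraicCurve Fermat.Agent.S24 Fermat.Agent.S18 Fermat.Agent.S36.Mod
  Fermat.Agent.BAD.LevelQ Fermat.Agent.BAD.LevelQ.Mod Fermat.Agent.Lib.EtaUnit
  Fermat.Agent.Lib.InertiaField Fermat.Agent.S36.BP Fermat.Agent.S44.X Fermat.Agent.S44.X.Model
  Fermat.Agent.S28.Export Fermat.Agent.Lib.Hauptmodul Fermat.Agent.S44.Depth.Inst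
  Fermat.Agent.S44 Fermat.Agent.S44.Depth

/-- **The model package, points form.** -/
def ModelO (q M' : ℕ) [NeZero q] [NeZero M'] (hc4 : Nat.Coprime q 4) (hc : (M' * 4).Coprime q)
    (A : ValuationSubring S44.Qb) [IsDiscreteValuationRing (A0 A)] : Prop :=
  ∃ (z x₀ y₀ : FK (K0 A) (M' * 4 * q)),
    MChart (A0 A) (q : K0 A) (VV (A0 A) hc) z ∧
    bcK (K0 A) (M' * 4 * q) x₀ = xU q M' hc4 ∧
    Eta (algebraMap (K0 A) (FK (K0 A) (M' * 4 * q)) (q : K0 A)) (VV (A0 A) hc) x₀ y₀ ∧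
    (∀ R : Subring (FK (K0 A) (M' * 4 * q)), IsModelPt (A0 A) (q : K0 A) z R →
      IsPt (A0 A) R ∧ PtBaseM (A0 A) (q : K0 A) (VV (A0 A) hc) R ∧ BAD.LevelQ.FinAt (A0 A) R ∧
      (IsNode (A0 A) (q : K0 A) (VV (A0 A) hc 0) (VV (A0 A) hc 1) x₀ y₀ R ∨
        (IsSm (A0 A) (q : K0 A) (VV (A0 A) hc 0) R ∧ Away R (VV (A0 A) hc 1)) ∨
        (IsSm (A0 A) (q : K0 A) (VV (A0 A) hc 1) R ∧ Away R (VV (A0 A) hc 0)))) ∧
    NodalModel (A0 A) (q : K0 A) 1 (VV (A0 A) hc 0) (VV (A0 A) hc 1) x₀ y₀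
      {R | IsSm (A0 A) (q : K0 A) (VV (A0 A) hc 0) R}
      {R | IsSm (A0 A) (q : K0 A) (VV (A0 A) hc 1) R}
      {R | IsNode (A0 A) (q : K0 A) (VV (A0 A) hc 0) (VV (A0 A) hc 1) x₀ y₀ R}

section Abs

variable {K₀ F' F : Type*} [Field K₀] [Field F'] [Field F] [Algebra K₀ F'] [Algebra K₀ F]
variable {A₀ : ValuationSubring K₀} {ϖ₀ : K₀} {q : ℕ} {al be : F' →ₐ[K₀] F} {w : F ≃ₐ[K₀] F}
  {γ : F' →+* F'} {Ow' : ValuationSubring F'} {V : Fin 2 → ValuationSubring F} {x' : F'}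
  {x y : F} {c : ℕ → ℕ → K₀}

/-- the cusp dichotomy for a hub whose coordinate has its poles exactly at the cusps (`x' = j`). -/
theorem cuspDich_of_cuspQ [CharZero K₀] (hac : IsAlgClosed (IsLocalRing.ResidueField A₀))
    (H : LQ A₀ ϖ₀ q al be w γ Ow' V x') (hx : x ∈ ch₁ A₀ al be x') (hy : y ∈ ch₁ A₀ al be x')
    (C : CuspQ A₀ q V c (al x')⁻¹ (be x')⁻¹) :
    CuspDich A₀ ϖ₀ V (xx al be x') (al x') x y := by
  intro R hR
  rcases H.cusp_or hac C hR with h | h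
  · exact Or.inl ⟨h _ H.al_mem_chart_xx, h _ hx, h _ hy⟩
  · exact Or.inr h

end Abs

variable {A : ValuationSubring S44.Qb} {q : ℕ} [NeZero q] {M' : ℕ} [NeZero M']

/-- assembly, generic in the hub. -/
theorem modelO_of [IsDiscreteValuationRing (A0 A)] (hq : q.Prime) (hc4 : Nat.Coprime q 4)
    (hc : (M' * 4).Coprime q) (hA : A.LiesOverPrime q) (hN : 4 * q ∣ M' * 4 * q)
    {γ : FK (K0 A) (M' * 4) →+* FK (K0 A) (M' * 4)} {x' : FK (K0 A) (M' * 4)}
    {J : FK (K0 A) (M' * 4 * q)}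
    (H : LQ (A0 A) (q : K0 A) q (al (K0 A) (M' * 4) q) (be (K0 A) (M' * 4) q) (ww (K0 A) hc) γ
      (Og (A0 A) (M' * 4)) (VV (A0 A) hc) x')
    (CD : CuspDich (A0 A) (q : K0 A) (VV (A0 A) hc)
      (xx (al (K0 A) (M' * 4) q) (be (K0 A) (M' * 4) q) x') J
      (unitK isW1_G4 q (M' * 4 * q) hc4 hN (K0 A)) (yK isW1_G4 hc4 hN (K0 A))) :
    ModelO q M' hc4 hc A := by
  have h4 : 4 ∣ M' * 4 := Dvd.intro_left M' rfl
  have E := etaW1 isW1_G4 hc4 h4 hc hN (A₀ := A0 A) (K := K0 A)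
  have hac := isAlgClosed_residueField_A0 A q hq hA
  have hfin := nodeFinD q A hq hA (M' * 4 * q) _ _ H.mChart
  have E' : Eta (algebraMap (K0 A) (FK (K0 A) (M' * 4 * q)) (q : K0 A)) (VV (A0 A) hc)
      (unitK isW1_G4 q (M' * 4 * q) hc4 hN (K0 A)) (yK isW1_G4 hc4 hN (K0 A)) := by
    rw [map_natCast]
    exact E
  exact ⟨_, _, _, H.mChart, baseChangeMap_unitK isW1_G4 q (M' * 4 * q) hc4 hN _, E',
    fun R hR => ⟨hR.isPt H.mChart hac, hR.ptBaseM H.mChart, hfin R hR,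
      classify hac H E' CD hfin hR⟩, nodalModel hac H E' CD hfin⟩

/-- **The model package (points form) for every odd prime `q`.** -/
theorem modelO_odd [IsDiscreteValuationRing (A0 A)] (hq : q.Prime) (hq2 : q ≠ 2)
    (hqM' : ¬ q ∣ M') (hc4 : Nat.Coprime q 4) (hc : (M' * 4).Coprime q)
    (hA : A.LiesOverPrime q) : ModelO q M' hc4 hc A := by
  have hN : 4 * q ∣ M' * 4 * q := ⟨M', by ring⟩
  have h4 : 4 ∣ M' * 4 := Dvd.intro_left M' rfl
  have hac := isAlgClosed_residueField_A0 A q hq hA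
  by_cases h3 : q = 3
  · subst h3
    have h2 : 2 ∣ M' * 4 := Dvd.dvd.mul_left (by norm_num) M'
    obtain ⟨D, hX, hDbar⟩ := S34.Nodal.Inst.Base.exists_baseData_h2 (M' * 4) h2
    have hB : S34.Nodal.Inst.BaseOK (M' * 4) 3 (D.xK Kbar) := by
      rw [hDbar]
      exact S34.Nodal.Inst.Ord.baseOK_h2 hq h2 (by norm_num)
    obtain ⟨γ₀, -, H⟩ := lq_inertia A hq hA hc D (beInt_of_baseOK D hB)
    have hj := jK_mul_xK (K0 A) hX
    have h256 : (A0 A).valuation (256 : K0 A) = 1 := val_256 (by simpa using H.char)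
    obtain ⟨c', h0, hrel⟩ := exists_rel_j (K := K0 A) (M := M' * 4) hq
    have C := cuspQ_j H (a := 256) ((ValuationSubring.valuation_le_one_iff _ _).1 h256.le)
      (by rw [map_ofNat, map_ofNat]) hj (fun a b => intCast_mem (A0 A) _)
      (by rw [h0]; simp) hrel
    exact modelO_of hq hc4 hc hA hN H (cuspDich hac H h256 hj C (x_mem_VV isW1_G4 hc4 h4 hc hN)
      (y_mem_VV isW1_G4 hc4 h4 hc hN) (x_mem_top isW1_G4 hc4 hN) (y_mem_top isW1_G4 hc4 hN))
  · have h5 : 5 ≤ q := by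
      have h2 := hq.two_le
      by_contra hlt
      have : q = 4 := by omega
      subst this
      exact absurd hq (by norm_num)
    obtain ⟨D, -, hDbar⟩ := S34.Nodal.Inst.Base.exists_baseData_j (M' * 4) q hq h5
    obtain ⟨γ₀, -, H⟩ := lq_inertia A hq hA hc D (beInt_j D hDbar)
    rw [xK_eq_jK (K0 A) hDbar] at H
    obtain ⟨c, C⟩ := exists_cuspQ H
    exact modelO_of hq hc4 hc hA hN H (cuspDich_of_cuspQ hac H
      (x_mem_ch₁ isW1_G4 hc4 h4 hc hN H) (y_mem_ch₁ isW1_G4 hc4 h4 hc hN H) C)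

end Fermat.Agent.S43.E0.Three

end
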